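import Fermat.Agent.S35.G.SpecLevel
import Fermat.Agent.S35.H858.NormBC
import Fermat.Agent.A2.T1.H669.T1Core
import Fermat.Agent.Lib.HI.H864.Modular

/-!
# S35, piece (G'), leaf T1F (helper858): descent `ℚ̄ → E`

`t1f : T1FStatement` (helper450's `SpecLevel.lean`, VERBATIM).

Proof (pattern of `A2/T1/H669`): the function `f` and the data `c, g`, `c', g'` of the two norm
hypotheses descend to every level containing a finite set `S`; IFs gives a good `s`-stable level
`E ⊇ S`; `m ∣ div f` becomes `DivisibleDiv` (helper669 T2); the norms along `α`, `β` commute with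
the constant field extension `E ⊆ ℚ̄` (`S35/H858/NormBC.lean`: the constants `ε_j`, `ε` an
`E`-basis of `ℚ̄`, form a basis of `F̄` over `F_E` at both levels, so an `F_{M,E}`-basis of
`F_{Mq,E}` is an `F̄_M`-basis of `F̄_{Mq}`; no degree computation is needed); the conclusion is
pushed back by `iota`.
-/

set_option autoImplicit false
set_option linter.style.haveILetI false
set_option synthInstance.maxHeartbeats 400000
set_option maxHeartbeats 1600000

noncomputable section

namespace Fermat.Agent.S35.G.H858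

open ModularCurve AlgebraicCurve Fermat.Agent.S35.G Fermat.Agent.S29.H395

/-- `iota` commutes with `frobSub`. -/
theorem iota_frobSub (E : IntermediateField ℚ Qb) (N : ℕ)
    (φE : A2.Mod.FE E N ≃+* A2.Mod.FE E N)
    (φ : modularFunctionFieldBar N ≃+* modularFunctionFieldBar N)
    (hφ : ∀ y, A2.T1.H669.iota E (modularFunctionFieldFull N) (φE y) =
      φ (A2.T1.H669.iota E (modularFunctionFieldFull N) y))
    (Q : ℕ) (y : A2.Mod.FE E N) :
    A2.T1.H669.iota E (modularFunctionFieldFull N) (frobSub φE Q y) =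
      frobSub φ Q (A2.T1.H669.iota E (modularFunctionFieldFull N) y) := by
  unfold frobSub
  rw [map_mul, map_inv₀, map_pow, hφ]

/-- `iota` commutes with `frobPoly`. -/
theorem iota_frobPoly (E : IntermediateField ℚ Qb) (N : ℕ)
    (φE : A2.Mod.FE E N ≃+* A2.Mod.FE E N)
    (φ : modularFunctionFieldBar N ≃+* modularFunctionFieldBar N)
    (hφ : ∀ y, A2.T1.H669.iota E (modularFunctionFieldFull N) (φE y) =
      φ (A2.T1.H669.iota E (modularFunctionFieldFull N) y))
    (Q : ℕ) (y : A2.Mod.FE E N) :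
    A2.T1.H669.iota E (modularFunctionFieldFull N) (frobPoly φE Q y) =
      frobPoly φ Q (A2.T1.H669.iota E (modularFunctionFieldFull N) y) := by
  unfold frobPoly
  rw [iota_frobSub E N φE φ hφ, iota_frobSub E N φE φ hφ, iota_frobSub E N φE φ hφ]

/-- Descent of a norm hypothesis. -/
theorem normPow_descent (E : IntermediateField ℚ Qb) (M q m : ℕ) [NeZero M] [NeZero q]
    (ψE : A2.Mod.FE E M →ₐ[E] A2.Mod.FE E (M * q))
    (ψ : modularFunctionFieldBar M →ₐ[Qb] modularFunctionFieldBar (M * q))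
    (hN : ∀ y, A2.T1.H669.iota E (modularFunctionFieldFull M) (normAlong ψE y) =
      normAlong ψ (A2.T1.H669.iota E (modularFunctionFieldFull (M * q)) y))
    (y : A2.Mod.FE E (M * q)) (c : Qb) (hc : c ∈ E) (g : A2.Mod.FE E M)
    (h : normAlong ψ (A2.T1.H669.iota E (modularFunctionFieldFull (M * q)) y) =
      algebraMap Qb (modularFunctionFieldBar M) c *
        (A2.T1.H669.iota E (modularFunctionFieldFull M) g) ^ m) :
    NormPow ψE m y := by
  refine ⟨⟨c, hc⟩, g, ?_⟩
  apply A2.T1.H669.iota_injective E (modularFunctionFieldFull M)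
  rw [hN, h, map_mul, map_pow, A2.T1.H669.iota_algebraMap]
  rfl

/-- **T1F.** -/
theorem t1f : T1FStatement := by
  intro M q m _ _ hq hqM hm hqm hIF hLEV A hA s hs f hf hdiv hNα hNβ
  classical
  obtain ⟨c₁, g₁, h₁⟩ := hNα
  obtain ⟨c₂, g₂, h₂⟩ := hNβ
  obtain ⟨S₁, hS₁⟩ :=
    A2.T1.H669.exists_finset_descent (modularFunctionFieldFull (M * q)) f
  obtain ⟨S₂, hS₂⟩ := A2.T1.H669.exists_finset_descent (modularFunctionFieldFull M) g₁
  obtain ⟨S₃, hS₃⟩ := A2.T1.H669.exists_finset_descent (modularFunctionFieldFull M) g₂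
  obtain ⟨E, hSE, hE, hst⟩ :=
    hIF q hq A hA s hs.mem_decompositionSubgroup (S₁ ∪ S₂ ∪ S₃ ∪ {c₁, c₂})
  obtain ⟨y, hy⟩ := hS₁ E (fun x hx => hSE x (by simp [hx]))
  obtain ⟨a, ha⟩ := hS₂ E (fun x hx => hSE x (by simp [hx]))
  obtain ⟨b, hb⟩ := hS₃ E (fun x hx => hSE x (by simp [hx]))
  have hc₁ : c₁ ∈ E := hSE c₁ (by simp)
  have hc₂ : c₂ ∈ E := hSE c₂ (by simp)
  have hy0 : y ≠ 0 := by
    rintro rfl
    exact hf (by rw [← hy, map_zero])
  have hNy : NormPow (A2.Mod.αE E M q) m y :=
    normPow_descent E M q m _ _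
      (Fermat.Agent.S35.H858.iota_normAlong_alpha E M q
        (Fermat.Agent.Lib.HI.H864.finiteAlong_alpha M q))
      y c₁ hc₁ a (by rw [hy, ha]; exact h₁)
  have hNy' : NormPow (A2.Mod.βE E M q) m y :=
    normPow_descent E M q m _ _
      (Fermat.Agent.S35.H858.iota_normAlong_beta E M q
        (Fermat.Agent.Lib.HI.H864.finiteAlong_beta M q))
      y c₂ hc₂ b (by rw [hy, hb]; exact h₂)
  obtain ⟨h, hh0, hh⟩ := hLEV A E hA hE s hst hs y hy0
    (A2.T1.H669.divisibleDiv_of_ord E (modularFunctionFieldFull (M * q)) m y hy0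
      (fun v => by rw [hy]; exact hdiv v))
    hNy hNy'
  refine ⟨1, A2.T1.H669.iota E _ h, one_ne_zero, ?_⟩
  have h3 := congrArg (A2.T1.H669.iota E (modularFunctionFieldFull (M * q))) hh
  rw [iota_frobPoly E (M * q) (psiE E (M * q) s hst) (actBar (M * q) (s * s))
    (fun z => A2.T1.H669.iota_arithmeticRingAut E _ (s * s)
      (A2.Mod.resE E s hst * A2.Mod.resE E s hst) (fun e => rfl) z), hy, map_pow] at h3
  rw [h3, map_one, one_mul]

end Fermat.Agent.S35.G.H858
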